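/-
S30 / helper222 — the frozen statement S30 from the S18 hub ALONE (no S37 internals, no place
reduction map): the only open input `RawESAll` of helper330's chain
(`S30/H330/AdicChain.lean`, `result_of_k3fin_rawESAll`) is discharged by piece ESK
(`S29/H222/ESK*.lean`: Eichler–Shimura on `m`-torsion directly from `S18.CoreStatement N A m`),
K3-FIN by `S29.M4b.K3.finStatement`.

* `rawESAll_of_core  : H222.CoreFamily → ∀ N, H330.RawESAll N`
* `rawESAll_of_nodes : node_mod → node_alg → ∀ N, H330.RawESAll N`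
* `S30_of_core       : H222.CoreFamily → <frozen S30>`
* `S30_of_nodes      : node_mod → node_alg → <frozen S30>`   (the two open nodes of the S18
  skeleton, in the exact shapes of `S18/H694/CoreFamilyOfNodes.lean` / `S29/Gate.lean`).
-/
import Fermat.Agent.S30.H330.AdicChain
import Fermat.Agent.S29.RawESCore
import Fermat.Agent.S29.M4b.K3.Piece
import Fermat.Agent.S18.H694.CoreFamilyOfNodes

set_option autoImplicit false
set_option linter.style.haveILetI false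

noncomputable section

namespace Fermat.Agent.S30.H222

open ModularCurve AlgebraicCurve Polynomial
open Fermat.Agent.S18 (Qb CoreStatement)

/-- **Raw Eichler–Shimura on all prime-to-`ℓ` torsion from the S18 hub.** -/
theorem rawESAll_of_core (hcore : Fermat.Agent.S29.H222.CoreFamily) (N : ℕ) [NeZero N] :
    Fermat.Agent.S30.H330.RawESAll N := by
  intro ℓ hℓ hℓN A hA m hm
  haveI : NeZero ℓ := ⟨hℓ.ne_zero⟩
  have hm0 : m ≠ 0 := fun h => hm (h ▸ dvd_zero ℓ)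
  have hC := hcore N ℓ hℓ hℓN m hm A hA
  have hP := Fermat.Agent.S29.pgiFamily N ℓ hℓ hℓN A hA
  refine ⟨fun σ hσ x hx => ?_, fun σ hσ x hx => ?_⟩
  · exact Fermat.Agent.S29.H222.esk_inertia N m hm0 A hC hP σ hσ x
      (by rw [natCast_zsmul]; exact hx)
  · have h := Fermat.Agent.S29.H222.esk_frob N ℓ hℓ m hm0 A hA hC hP
      (Fermat.Agent.S29.heckeInputsAlong_bar N ℓ hℓ)
      (fun y => Fermat.Agent.S37.H819.normId N ℓ hℓ hℓN y) σ hσ x
      (by rw [natCast_zsmul]; exact hx)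
    rwa [natCast_zsmul] at h

/-- **Raw Eichler–Shimura on all prime-to-`ℓ` torsion from the two open nodes of row S18.** -/
theorem rawESAll_of_nodes
    (node_mod : ∀ (M : ℕ) [NeZero M] {ℓ : ℕ} [Fact ℓ.Prime], ¬ ℓ ∣ M →
      ∀ A : ValuationSubring Qb, A.LiesOverPrime ℓ → Fermat.Agent.S18.Mod.GoodModelStatement M ℓ A)
    (node_alg : ∀ M : ℕ, Fermat.Agent.S18.Mod.AlgStatement M) (N : ℕ) [NeZero N] :
    Fermat.Agent.S30.H330.RawESAll N :=
  rawESAll_of_core (Fermat.Agent.S18.H694.coreFamily_of_nodes node_mod node_alg) N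

/-- **The frozen statement S30 from the S18 hub.** -/
theorem S30_of_core (hcore : Fermat.Agent.S29.H222.CoreFamily) :
    ∀ (p : ℕ) [Fact p.Prime] (N : ℕ) [NeZero N] (S : Finset ℕ)
      (_hpS : p ∈ S) (_hNS : ∀ q : ℕ, q.Prime → q ∣ N → q ∈ S)
      (𝒪' : Type) [CommRing 𝒪'] [IsDomain 𝒪'] [IsDiscreteValuationRing 𝒪']
      [IsAdicComplete (IsLocalRing.maximalIdeal 𝒪') 𝒪'] [Finite (IsLocalRing.ResidueField 𝒪')]
      [CharZero 𝒪'] (_hp𝒪' : (p : 𝒪') ∈ IsLocalRing.maximalIdeal 𝒪')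
      (χ : CuspForm.heckeAlgebra N 2 (↑S : Set ℕ) →+* 𝒪'),
      ∃ (𝒪'' : Type) (_ : CommRing 𝒪'') (_ : IsDomain 𝒪'') (_ : IsDiscreteValuationRing 𝒪'')
        (_ : IsAdicComplete (IsLocalRing.maximalIdeal 𝒪'') 𝒪'')
        (_ : Finite (IsLocalRing.ResidueField 𝒪'')) (_ : CharZero 𝒪'')
        (_ : Algebra 𝒪' 𝒪'') (_ : Module.Finite 𝒪' 𝒪'') (_ : IsLocalHom (algebraMap 𝒪' 𝒪'')),
      Function.Injective (algebraMap 𝒪' 𝒪'') ∧
      ∃ ρ : GaloisRepAdic 𝒪'',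
        (∀ (ℓ : ℕ) (hℓ : ℓ.Prime) (hℓN : ¬ ℓ ∣ N) (hℓS : ℓ ∉ (↑S : Set ℕ)),
          ∀ A : ValuationSubring (AlgebraicClosure ℚ), A.LiesOverPrime ℓ →
            ∀ σ : AlgebraicClosure ℚ ≃ₐ[ℚ] AlgebraicClosure ℚ, A.IsFrobeniusAt σ ℓ →
              LinearMap.charpoly (ρ.ρ σ) =
                X ^ 2 - C (algebraMap 𝒪' 𝒪'' (χ (CuspForm.heckeAlgebra.T hℓ hℓN hℓS))) * X
                  + C ((ℓ : 𝒪''))) ∧
        (∀ q : ℕ, q.Prime → ¬ q ∣ N → q ≠ p → ρ.IsUnramifiedAt q) :=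
  Fermat.Agent.S30.H330.result_of_k3fin_rawESAll
    (fun N _ p hp n =>
      haveI : NeZero (p ^ n) := ⟨pow_ne_zero n hp.out.ne_zero⟩
      Fermat.Agent.S29.M4b.K3.finStatement N (p ^ n))
    (fun N _ => rawESAll_of_core hcore N)

/-- **The frozen statement S30 from the two open nodes of row S18.** -/
theorem S30_of_nodes
    (node_mod : ∀ (M : ℕ) [NeZero M] {ℓ : ℕ} [Fact ℓ.Prime], ¬ ℓ ∣ M →
      ∀ A : ValuationSubring Qb, A.LiesOverPrime ℓ → Fermat.Agent.S18.Mod.GoodModelStatement M ℓ A)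
    (node_alg : ∀ M : ℕ, Fermat.Agent.S18.Mod.AlgStatement M) :
    ∀ (p : ℕ) [Fact p.Prime] (N : ℕ) [NeZero N] (S : Finset ℕ)
      (_hpS : p ∈ S) (_hNS : ∀ q : ℕ, q.Prime → q ∣ N → q ∈ S)
      (𝒪' : Type) [CommRing 𝒪'] [IsDomain 𝒪'] [IsDiscreteValuationRing 𝒪']
      [IsAdicComplete (IsLocalRing.maximalIdeal 𝒪') 𝒪'] [Finite (IsLocalRing.ResidueField 𝒪')]
      [CharZero 𝒪'] (_hp𝒪' : (p : 𝒪') ∈ IsLocalRing.maximalIdeal 𝒪')
      (χ : CuspForm.heckeAlgebra N 2 (↑S : Set ℕ) →+* 𝒪'),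
      ∃ (𝒪'' : Type) (_ : CommRing 𝒪'') (_ : IsDomain 𝒪'') (_ : IsDiscreteValuationRing 𝒪'')
        (_ : IsAdicComplete (IsLocalRing.maximalIdeal 𝒪'') 𝒪'')
        (_ : Finite (IsLocalRing.ResidueField 𝒪'')) (_ : CharZero 𝒪'')
        (_ : Algebra 𝒪' 𝒪'') (_ : Module.Finite 𝒪' 𝒪'') (_ : IsLocalHom (algebraMap 𝒪' 𝒪'')),
      Function.Injective (algebraMap 𝒪' 𝒪'') ∧
      ∃ ρ : GaloisRepAdic 𝒪'',
        (∀ (ℓ : ℕ) (hℓ : ℓ.Prime) (hℓN : ¬ ℓ ∣ N) (hℓS : ℓ ∉ (↑S : Set ℕ)),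
          ∀ A : ValuationSubring (AlgebraicClosure ℚ), A.LiesOverPrime ℓ →
            ∀ σ : AlgebraicClosure ℚ ≃ₐ[ℚ] AlgebraicClosure ℚ, A.IsFrobeniusAt σ ℓ →
              LinearMap.charpoly (ρ.ρ σ) =
                X ^ 2 - C (algebraMap 𝒪' 𝒪'' (χ (CuspForm.heckeAlgebra.T hℓ hℓN hℓS))) * X
                  + C ((ℓ : 𝒪''))) ∧
        (∀ q : ℕ, q.Prime → ¬ q ∣ N → q ≠ p → ρ.IsUnramifiedAt q) :=
  S30_of_core (Fermat.Agent.S18.H694.coreFamily_of_nodes node_mod node_alg)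

end Fermat.Agent.S30.H222
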